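/-
P-SS2 (S36), J-side, helper33 (for row 1071, SS2-J4cd): the Kummer embedding of helper34
(`Fermat.Agent.H34.kummerEmbedding`) with the CONCRETE descent `φ = H29.descentHom N ι` and a
given primitive root of unity, together with its characterisation
`TorsionCharRel N m (descentHom N ι (κ ψ)) (kumChar ζ ψ)`:

* `kummerChar N : Fermat.Agent.H63.SS2.KummerCharStatement N` (unconditional).
-/
import Fermat.Agent.H63.SS2.Interfaces
import Fermat.Agent.H94.QEig.Unconditional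
import Fermat.Agent.H34.S31Kum.Main

set_option autoImplicit false

noncomputable section

open AlgebraicCurve ModularCurve CongruenceSubgroup ModularCurve.Period
open scoped MatrixGroups

namespace Fermat.Agent.H33.SS2

open Fermat.Agent.H23.EsA (TorsionCharRel IsParEllTrivial)
open Fermat.Agent.H34 Fermat.Agent.H29

/-- **J8a (KUM-CHAR)**: the Kummer embedding with its characterisation over `ℂ`. -/
theorem kummerChar (N : ℕ) [NeZero N] : Fermat.Agent.H63.SS2.KummerCharStatement N := by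
  intro ι m hm ζ hζ
  have hKH : Fermat.Agent.H21.EsC.KummerHeckeStatement N :=
    Fermat.Agent.H94.QEig.kummerHeckeStatement N
  have hζm : ζ ^ m = 1 := hζ.pow_eq_one
  -- ES-A
  obtain ⟨-, huniq, hprop, hadd, hinj, hsurj⟩ :=
    Fermat.Agent.H23.EsA.torsionCharStatement N m hm
  have hrel1 : TorsionCharRel N m 0 1 := by
    obtain ⟨x, hx⟩ := hsurj 1 (MonoidHom.ext fun γ => by simp) (fun _ _ => rfl)
    have := hinj x hx
    rwa [this] at hx
  have hrelU : ∀ x x' χ, TorsionCharRel N m x χ → TorsionCharRel N m x' χ → x = x' := by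
    intro x x' χ hx hx'
    obtain ⟨-, hχm, hχt⟩ := hprop x χ hx
    have hχi : IsParEllTrivial N χ⁻¹ := by
      intro γ hγ
      rw [MonoidHom.inv_apply, hχt γ hγ, inv_one]
    have hχγ : ∀ γ, χ γ ^ m = 1 := fun γ => by
      have := congrArg (fun f : ↥(Gamma0 N) →* ℂˣ => f γ) hχm
      simpa using this
    have hχim : χ⁻¹ ^ m = 1 := MonoidHom.ext fun γ => by
      simp [hχγ γ]
    have hχχ : χ * χ⁻¹ = 1 := MonoidHom.ext fun γ => by simp
    obtain ⟨x'', hx''⟩ := hsurj χ⁻¹ hχim hχi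
    have h1 := hadd x x'' χ χ⁻¹ hx hx''
    have h2 := hadd x' x'' χ χ⁻¹ hx' hx''
    rw [hχχ] at h1 h2
    have h3 := hinj _ h1
    have h4 := hinj _ h2
    have : x + x'' = x' + x'' := by rw [h3, h4]
    exact add_right_cancel this
  -- the complex Kummer map
  have hchi : ∀ ψ : Fermat.Agent.H14.S31Lat N,
      ∃ x, TorsionCharRel N m x (kumChar ζ (ψ : Additive ↥(Gamma0 N) →+ ℤ)) := fun ψ =>
    hsurj _ (kumChar_pow_eq_one hζm _) (isParEllTrivial_kumChar N ζ _ ψ.2)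
  choose κC hκC using hchi
  have hκCadd : ∀ ψ ψ', κC (ψ + ψ') = κC ψ + κC ψ' := by
    intro ψ ψ'
    have h1 := hadd _ _ _ _ (hκC ψ) (hκC ψ')
    rw [← kumChar_add] at h1
    exact hrelU _ _ _ (hκC (ψ + ψ')) h1
  have hκCtors : ∀ ψ, κC ψ ∈ Pic0.torsion ℂ ↥(Fermat.Agent.H23.EsA.FC N) m := fun ψ =>
    (hprop _ _ (hκC ψ)).1
  -- descent to `ℚ̄`
  have hφinj : Function.Injective (descentHom N ι) := descentHom_injective N ι
  have hex : ∀ ψ : Fermat.Agent.H14.S31Lat N, ∃ z₀ : JZero N,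
      z₀ ∈ Pic0.torsion (AlgebraicClosure ℚ) ↥(modularFunctionFieldBar N) m ∧
        descentHom N ι z₀ = κC ψ :=
    fun ψ => descentHom_surjOn_torsion N ι hm (Fermat.Agent.H23.EsA.finite_torsion_pic0 N hm)
      (κC ψ) (hκCtors ψ)
  choose κ hκtors hκ using hex
  have hκadd : ∀ ψ ψ', κ (ψ + ψ') = κ ψ + κ ψ' := by
    intro ψ ψ'
    apply hφinj
    rw [map_add, hκ, hκ, hκ, hκCadd]
  refine ⟨AddMonoidHom.mk' κ hκadd, ?_, ?_, ?_, ?_⟩
  · intro ψ
    have h := Pic0.mem_torsion.mp (hκtors ψ)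
    show m • κ ψ = 0
    rw [← natCast_zsmul]
    exact h
  · intro ψ hψ
    replace hψ : κ ψ = 0 := hψ
    have h1 : κC ψ = 0 := by rw [← hκ, hψ, map_zero]
    have h2 := hκC ψ
    rw [h1] at h2
    have h3 := huniq _ _ _ h2 hrel1
    obtain ⟨ψ', hψ', hpar⟩ := exists_eq_nsmul_of_kumChar_eq_one hm hζ h3
    have hψ'par : IsParabolicHom (Gamma0 N) ψ' := fun γ hγ => hpar _ (ψ.2 γ hγ)
    refine ⟨⟨ψ', hψ'par⟩, ?_⟩
    apply Subtype.ext
    rw [hψ']
    rfl
  · intro ℓ hℓ hℓN ψ ψ' hψψ'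
    show κ ψ' = heckeOperatorBar N ⟨ℓ, hℓ⟩ (κ ψ)
    apply hφinj
    have : NeZero ℓ := ⟨hℓ.ne_zero⟩
    have h1 : descentHom N ι (heckeOperatorBar N ⟨ℓ, hℓ⟩ (κ ψ))
        = heckeOperatorAlong ℂ N ℓ (descentHom N ι (κ ψ)) :=
      descentHom_hecke N ι ℓ
        (Fermat.Agent.H49.heckeInputsStatement (AlgebraicClosure ℚ) N ℓ hℓ)
        (Fermat.Agent.H49.heckeInputsStatement ℂ N ℓ hℓ) (κ ψ)
    rw [h1, hκ, hκ]
    have h2 := hKH ℓ hℓ hℓN m hm (κC ψ) _ (hκC ψ)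
    rw [cohTChar_kumChar, ← hψψ'] at h2
    exact hrelU _ _ _ (hκC ψ') h2
  · intro ψ
    show TorsionCharRel N m (descentHom N ι (κ ψ)) _
    rw [hκ]
    exact hκC ψ

end Fermat.Agent.H33.SS2

end
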