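/-
P-SS2 (S36), J-side, row 1071 (SS2-J4cd DESCENT + ASSEMBLY), helper33:

* `descent_jPushA`, `descent_jPushB` : the descent homomorphism
  `J₀(N)(ℚ̄) → Pic⁰(ℂ(X₀(N)))` commutes with the two degeneracy push-forwards
  (`H52.SS.jPushA` / `cPushA`, `jPushB` / `cPushB`);
* `kummerNew_of_kummerChar` : `H52.SS.KummerNewStatement M` from `PushCharStatement` and the
  Kummer characterisation at level `M`;
* `kummerNew_of_pushChar` : `H52.SS.KummerNewStatement M` from `PushCharStatement`.
-/
import Fermat.Agent.H52.SS.JInterfaces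
import Fermat.Agent.H37.SS2.KummerNew
import Fermat.Agent.H33.SS2.KummerChar

set_option autoImplicit false
set_option linter.style.haveILetI false

noncomputable section

namespace Fermat.Agent.H33.SS2

open AlgebraicCurve ModularCurve CongruenceSubgroup
open Fermat.Agent.H23.EsA (TorsionCharRel)
open Fermat.Agent.H29 Fermat.Agent.H34 Fermat.Agent.H52.SS Fermat.Agent.H63.LR

section Descent

variable (N q : ℕ) [NeZero N] [NeZero q] (ι : AlgebraicClosure ℚ →+* ℂ)

/-- Descent commutes with the push-forward along `α`. -/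
theorem descent_jPushA (hq : q.Prime) (x : JZero (N * q)) :
    descentHom N ι (jPushA N q hq x) = cPushA N q hq (descentHom (N * q) ι x) := by
  haveI : CharZero (AlgebraicClosure ℚ) := algebraRat.charZero _
  haveI : HasPrincipalDivisors (AlgebraicClosure ℚ)
      ↥(laurentBaseChange (AlgebraicClosure ℚ) (modularFunctionFieldFull (N * q))) :=
    Fermat.Agent.H93.esc_pd_of_isFunctionField _ (Fermat.Agent.H54.isFunctionField _) (N * q)
  haveI : HasPrincipalDivisors ℂ ↥(laurentBaseChange ℂ (modularFunctionFieldFull (N * q))) :=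
    Fermat.Agent.H93.esc_pd_of_isFunctionField _ (Fermat.Agent.H54.isFunctionField _) (N * q)
  obtain ⟨D, rfl⟩ := Pic0.mk_surjective x
  unfold jPushA cPushA
  rw [pic0PushforwardAlong_mk, descentHom_mk, descentHom_mk, pic0PushforwardAlong_mk]
  refine congrArg Pic0.mk (Subtype.ext ?_)
  rw [coe_degZeroBC, coe_degZeroPushforwardAlong, coe_degZeroPushforwardAlong, coe_degZeroBC]
  exact (pullPushBCStatement _ _ _ _ _ _ (cE N ι) (cE (N * q) ι)
    (heckeAlphaBar (AlgebraicClosure ℚ) N q) (heckeAlphaBar ℂ N q) _ _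
    (squareCompat_alpha N ι q) (extC N ι) (extC (N * q) ι) (extC_isPlaceExt N ι)
    (extC_isPlaceExt (N * q) ι)).2 _

/-- Descent commutes with the push-forward along `β`. -/
theorem descent_jPushB (hq : q.Prime) (x : JZero (N * q)) :
    descentHom N ι (jPushB N q hq x) = cPushB N q hq (descentHom (N * q) ι x) := by
  haveI : CharZero (AlgebraicClosure ℚ) := algebraRat.charZero _
  haveI : HasPrincipalDivisors (AlgebraicClosure ℚ)
      ↥(laurentBaseChange (AlgebraicClosure ℚ) (modularFunctionFieldFull (N * q))) :=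
    Fermat.Agent.H93.esc_pd_of_isFunctionField _ (Fermat.Agent.H54.isFunctionField _) (N * q)
  haveI : HasPrincipalDivisors ℂ ↥(laurentBaseChange ℂ (modularFunctionFieldFull (N * q))) :=
    Fermat.Agent.H93.esc_pd_of_isFunctionField _ (Fermat.Agent.H54.isFunctionField _) (N * q)
  obtain ⟨D, rfl⟩ := Pic0.mk_surjective x
  unfold jPushB cPushB
  rw [pic0PushforwardAlong_mk, descentHom_mk, descentHom_mk, pic0PushforwardAlong_mk]
  refine congrArg Pic0.mk (Subtype.ext ?_)
  rw [coe_degZeroBC, coe_degZeroPushforwardAlong, coe_degZeroPushforwardAlong, coe_degZeroBC]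
  exact (pullPushBCStatement _ _ _ _ _ _ (cE N ι) (cE (N * q) ι)
    (heckeBetaBar (AlgebraicClosure ℚ) N q) (heckeBetaBar ℂ N q) _ _
    (squareCompat_beta N ι q) (extC N ι) (extC (N * q) ι) (extC_isPlaceExt N ι)
    (extC_isPlaceExt (N * q) ι)).2 _

end Descent

/-- The transfer of a Kummer character is the Kummer character of the transfer. -/
theorem pushChar_kumChar {Γ Γ' : Type*} [Group Γ] [Group Γ'] (j : Γ' →* Γ) (ζ : ℂˣ)
    (ψ : Additive Γ' →+ ℤ) :
    pushChar j (kumChar ζ ψ) = kumChar ζ (pushHom j ℤ ψ) := by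
  unfold pushChar
  rw [toAdditive_kumChar, pushHom_comp]
  rfl

theorem kumChar_zero {Γ : Type*} [Group Γ] (ζ : ℂˣ) :
    kumChar ζ (0 : Additive Γ →+ ℤ) = 1 := by
  ext γ
  simp

/-- **J4 (c)+(d)**: Kummer embeddings map new classes to new classes, from `PushCharStatement`
and the Kummer characterisation at level `M`. -/
theorem kummerNew_of_kummerChar (hPC : PushCharStatement) (M : ℕ) [NeZero M]
    (hKC : Fermat.Agent.H63.SS2.KummerCharStatement M) : KummerNewStatement M := by
  intro m hm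
  obtain ⟨ι⟩ : Nonempty (AlgebraicClosure ℚ →+* ℂ) := by
    have : Algebra.IsAlgebraic ℚ (AlgebraicClosure ℚ) := AlgebraicClosure.isAlgebraic ℚ
    exact ⟨(IsAlgClosed.lift (R := ℚ) (S := AlgebraicClosure ℚ) (M := ℂ)).toRingHom⟩
  obtain ⟨ζ, hζ⟩ : ∃ ζ : ℂˣ, IsPrimitiveRoot ζ m := by
    have h := Complex.isPrimitiveRoot_exp m hm.ne'
    obtain ⟨ζ, hζ'⟩ := h.isUnit hm.ne'
    exact ⟨ζ, IsPrimitiveRoot.coe_units_iff.mp (hζ' ▸ h)⟩
  obtain ⟨κ, h1, h2, h3, h4⟩ := hKC ι m hm ζ hζ
  refine ⟨κ, h1, h2, h3, ?_⟩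
  intro ψ hnew N q _ _ hq h
  subst h
  obtain ⟨hA, hB⟩ := hnew N q hq rfl
  rw [castH_rfl] at hA hB
  rw [castJ_rfl]
  obtain ⟨hPA, hPB⟩ := hPC N q hq m hm _ _ (h4 ψ)
  rw [pushChar_kumChar, hA, kumChar_zero] at hPA
  rw [pushChar_kumChar, hB, kumChar_zero] at hPB
  have hzA := (Fermat.Agent.H37.SS2.kn_rel_eq_one_iff N hm _ _ hPA).mp rfl
  have hzB := (Fermat.Agent.H37.SS2.kn_rel_eq_one_iff N hm _ _ hPB).mp rfl
  rw [← descent_jPushA N q ι hq] at hzA
  rw [← descent_jPushB N q ι hq] at hzB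
  exact ⟨descentHom_injective N ι (hzA.trans (map_zero _).symm),
    descentHom_injective N ι (hzB.trans (map_zero _).symm)⟩

/-- **J4 (c)+(d)** (row 1071): `KummerNewStatement M` from `PushCharStatement`. -/
theorem kummerNew_of_pushChar (hPC : PushCharStatement) (M : ℕ) [NeZero M] :
    KummerNewStatement M :=
  kummerNew_of_kummerChar hPC M (kummerChar M)

end Fermat.Agent.H33.SS2

end
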