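/-
P-SS2 (S36), J-side, row 1013 (SS2-J2B COR-HECKE-B), helper33: the operator of the family
`b_k = [[1, k], [0, q]]` (`k : ZMod q`) from `Γ₀(L q)` to `Γ₀(L)` commutes with the cohomological
Hecke operators `T_ℓ`, `ℓ ∤ L q`.  Core file (imports `Rew2` and `H21.Coh.Hecke` only).

* `rew2_of_rewriting`, `rew2_op_eq_transfer` : `H21.Rewriting` as `Rew2` data.
* `hermite_upper` : Hermite normal form, `u = κ u'` with `u`, `u'` upper triangular with positive
  diagonal forces the same diagonal and `b = b' + κ₀₁ d'`.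
* `sep_heckeMatrix_heckeRep` : separation of the product family `b_k h_x`.
* `swapMap`, `swapMap_injective`, `swapEquiv` : the bijection `(x, k) ↦ (k', x')`.
* `swapMu`, `swap_spec` : `h_x b_k = μ b_{k'} h_{x'}`.
* `op_heckeMatrix_cohT` : the commutation.
-/
import Fermat.Agent.H63.SS2.Rew2
import Fermat.Agent.H21.Coh.Hecke

set_option autoImplicit false

open CongruenceSubgroup Matrix.SpecialLinearGroup
open scoped MatrixGroups OnePoint
open P2MW.S_ModularForm_heckeT_slash_eq_self_of_mem_Gamma0.ModularForm.HeckeSlashInvariance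

namespace Fermat.Agent.H33.SS2

open Fermat.Agent.H21 Fermat.Agent.H63.SS2

/-! ### `Rewriting` as `Rew2` -/

theorem rew2_of_rewriting {G Γ X : Type*} [Group G] [Group Γ] {ι : Γ →* G} {α : X → G}
    (h : Rewriting ι α) : Rew2 ι ι α :=
  ⟨h.inj, h.rw, h.sep⟩

theorem rew2_op_eq_transfer {G Γ X : Type*} [Group G] [Group Γ] [Fintype X] {ι : Γ →* G}
    {α : X → G} (h : Rewriting ι α) (h' : Rew2 ι ι α) (A : Type*) [AddCommGroup A] :
    h'.op A = h.transfer A := by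
  refine AddMonoidHom.ext fun φ => AddMonoidHom.ext fun γ => ?_
  obtain ⟨γ, rfl⟩ : ∃ γ₀ : Γ, Additive.ofMul γ₀ = γ := ⟨Additive.toMul γ, rfl⟩
  rw [h'.op_apply_of_rewriting φ γ (h.tgt γ) (h.kap γ) (h.spec γ), h.transfer_apply]

/-! ### elementary arithmetic -/

theorem pair_eq_of_add_mul_eq {n j j' k k' : ℕ} (hj : j < n) (hj' : j' < n)
    (h : j + k * n = j' + k' * n) : j = j' ∧ k = k' := by
  have h1 : j = j' := by
    have := congrArg (· % n) h
    simp only [Nat.add_mul_mod_self_right] at this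
    rwa [Nat.mod_eq_of_lt hj, Nat.mod_eq_of_lt hj'] at this
  subst h1
  refine ⟨rfl, ?_⟩
  have hn : 0 < n := lt_of_le_of_lt (Nat.zero_le _) hj
  have h2 : k * n = k' * n := Nat.add_left_cancel h
  exact Nat.eq_of_mul_eq_mul_right hn h2

theorem eq_of_eq_add_mul {D b b' : ℕ} (hb : b < D) (hb' : b' < D) (t : ℤ)
    (h : (b : ℤ) = b' + t * D) : b = b' := by
  have h1 : (b : ℤ) % D = (b' : ℤ) % D := by
    rw [h, Int.add_mul_emod_self_right]
  have h2 : (b : ℤ) % D = b := Int.emod_eq_of_lt (by positivity) (by exact_mod_cast hb)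
  have h3 : (b' : ℤ) % D = b' := Int.emod_eq_of_lt (by positivity) (by exact_mod_cast hb')
  rw [h2, h3] at h1
  exact_mod_cast h1

theorem add_mul_lt {n m j k : ℕ} (hj : j < n) (hk : k < m) : j + k * n < m * n := by
  have h1 : (k + 1) * n ≤ m * n := Nat.mul_le_mul_right n hk
  have h2 : (k + 1) * n = k * n + n := by ring
  omega

/-! ### matrices -/

theorem coe_heckeMatrix_mul_heckeMatrix {p r : ℕ} (hp : p ≠ 0) (hr : r ≠ 0) (i j : ℕ) :
    ((ModularForm.heckeMatrix p i * ModularForm.heckeMatrix r j : GL (Fin 2) ℝ) :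
        Matrix (Fin 2) (Fin 2) ℝ)
      = !![((1 : ℕ) : ℝ), ((j + i * r : ℕ) : ℝ); 0, ((p * r : ℕ) : ℝ)] := by
  rw [Matrix.GeneralLinearGroup.coe_mul, ModularForm.val_heckeMatrix hp,
    ModularForm.val_heckeMatrix hr]
  ext a b
  fin_cases a <;> fin_cases b <;> simp [Matrix.mul_apply, Fin.sum_univ_two]

theorem coe_heckeDiag_mul_heckeMatrix {p r : ℕ} (hp : p ≠ 0) (hr : r ≠ 0) (j : ℕ) :
    ((ModularForm.heckeDiagMatrix p * ModularForm.heckeMatrix r j : GL (Fin 2) ℝ) :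
        Matrix (Fin 2) (Fin 2) ℝ)
      = !![((p : ℕ) : ℝ), ((p * j : ℕ) : ℝ); 0, ((r : ℕ) : ℝ)] := by
  rw [Matrix.GeneralLinearGroup.coe_mul, ModularForm.val_heckeDiagMatrix hp,
    ModularForm.val_heckeMatrix hr]
  ext a b
  fin_cases a <;> fin_cases b <;> simp [Matrix.mul_apply, Fin.sum_univ_two]

theorem coe_heckeMatrix_mul_heckeDiag {p r : ℕ} (hp : p ≠ 0) (hr : r ≠ 0) (i : ℕ) :
    ((ModularForm.heckeMatrix r i * ModularForm.heckeDiagMatrix p : GL (Fin 2) ℝ) :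
        Matrix (Fin 2) (Fin 2) ℝ)
      = !![((p : ℕ) : ℝ), ((i : ℕ) : ℝ); 0, ((r : ℕ) : ℝ)] := by
  rw [Matrix.GeneralLinearGroup.coe_mul, ModularForm.val_heckeDiagMatrix hp,
    ModularForm.val_heckeMatrix hr]
  ext a b
  fin_cases a <;> fin_cases b <;> simp [Matrix.mul_apply, Fin.sum_univ_two]

/-- **Hermite normal form**: if `u = κ u'` with `κ ∈ SL₂(ℤ)` and `u`, `u'` upper triangular with
positive integral diagonal, then the diagonals agree and `b = b' + κ₀₁ d'`. -/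
theorem hermite_upper (κ : SL(2, ℤ)) (u u' : GL (Fin 2) ℝ) (a b d a' b' d' : ℕ)
    (hu : (u : Matrix (Fin 2) (Fin 2) ℝ) = !![((a : ℕ) : ℝ), ((b : ℕ) : ℝ); 0, ((d : ℕ) : ℝ)])
    (hu' : (u' : Matrix (Fin 2) (Fin 2) ℝ)
      = !![((a' : ℕ) : ℝ), ((b' : ℕ) : ℝ); 0, ((d' : ℕ) : ℝ)])
    (ha : 0 < a) (ha' : 0 < a') (e : u = mapGL ℝ κ * u') :
    a = a' ∧ d = d' ∧ (b : ℤ) = b' + κ 0 1 * d' := by
  have e' : (u : Matrix (Fin 2) (Fin 2) ℝ)
      = ((mapGL ℝ κ * u' : GL (Fin 2) ℝ) : Matrix (Fin 2) (Fin 2) ℝ) := congrArg Units.val e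
  rw [mapGL_mul_upper_apply κ u' a' b' d' hu', hu] at e'
  have h00 : ((a : ℕ) : ℝ) = (κ 0 0 : ℝ) * a' := by
    have := congrFun (congrFun e' 0) 0
    simpa using this
  have h01 : ((b : ℕ) : ℝ) = (κ 0 0 : ℝ) * b' + (κ 0 1 : ℝ) * d' := by
    have := congrFun (congrFun e' 0) 1
    simpa using this
  have h10 : (0 : ℝ) = (κ 1 0 : ℝ) * a' := by
    have := congrFun (congrFun e' 1) 0
    simpa using this
  have h11 : ((d : ℕ) : ℝ) = (κ 1 0 : ℝ) * b' + (κ 1 1 : ℝ) * d' := by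
    have := congrFun (congrFun e' 1) 1
    simpa using this
  have h00z : (a : ℤ) = κ 0 0 * a' := by exact_mod_cast h00
  have h01z : (b : ℤ) = κ 0 0 * b' + κ 0 1 * d' := by exact_mod_cast h01
  have h10z : (0 : ℤ) = κ 1 0 * a' := by exact_mod_cast h10
  have h11z : (d : ℤ) = κ 1 0 * b' + κ 1 1 * d' := by exact_mod_cast h11
  have ha'z : (0 : ℤ) < a' := by exact_mod_cast ha'
  have haz : (0 : ℤ) < a := by exact_mod_cast ha
  have hk10 : κ 1 0 = 0 := by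
    rcases mul_eq_zero.mp h10z.symm with h | h
    · exact h
    · exact absurd h ha'z.ne'
  have hdet : κ 0 0 * κ 1 1 - κ 0 1 * κ 1 0 = 1 := by
    have := κ.det_coe
    rw [Matrix.det_fin_two] at this
    exact this
  rw [hk10, mul_zero, sub_zero] at hdet
  have hk00pos : 0 < κ 0 0 := by
    by_contra hneg
    have h1 : (a : ℤ) ≤ 0 := by
      rw [h00z]
      exact mul_nonpos_of_nonpos_of_nonneg (not_lt.mp hneg) ha'z.le
    omega
  have hk00 : κ 0 0 = 1 := by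
    rcases Int.eq_one_or_neg_one_of_mul_eq_one hdet with h | h
    · exact h
    · omega
  have hk11 : κ 1 1 = 1 := by
    rw [hk00, one_mul] at hdet
    exact hdet
  rw [hk00, one_mul] at h00z h01z
  rw [hk10, hk11, zero_mul, zero_add, one_mul] at h11z
  exact ⟨by exact_mod_cast h00z, by exact_mod_cast h11z, h01z⟩

/-! ### separation of the product family `b_k h_x` -/

theorem sep_heckeMatrix_heckeRep {ℓ q : ℕ} [NeZero q] [NeZero ℓ] (hℓ : ℓ.Prime)
    (p p' : ZMod q × OnePoint (ZMod ℓ)) (κ : SL(2, ℤ))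
    (e : ModularForm.heckeMatrix q p.1.val * heckeRep ℓ p.2
      = mapGL ℝ κ * (ModularForm.heckeMatrix q p'.1.val * heckeRep ℓ p'.2)) : p = p' := by
  have hq : q ≠ 0 := NeZero.ne q
  have hℓ0 : ℓ ≠ 0 := hℓ.ne_zero
  obtain ⟨k, x⟩ := p
  obtain ⟨k', x'⟩ := p'
  simp only at e
  induction x using OnePoint.rec with
  | infty =>
    induction x' using OnePoint.rec with
    | infty =>
      rw [heckeRep_infty] at e
      obtain ⟨-, -, h3⟩ := hermite_upper κ _ _ ℓ k.val q ℓ k'.val q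
        (coe_heckeMatrix_mul_heckeDiag hℓ0 hq _) (coe_heckeMatrix_mul_heckeDiag hℓ0 hq _)
        hℓ.pos hℓ.pos e
      have h4 := eq_of_eq_add_mul (ZMod.val_lt k) (ZMod.val_lt k') _ h3
      rw [ZMod.val_injective q h4]
    | coe j' =>
      rw [heckeRep_infty, heckeRep_coe] at e
      obtain ⟨h1, -, -⟩ := hermite_upper κ _ _ ℓ k.val q 1 (j'.val + k'.val * ℓ) (q * ℓ)
        (coe_heckeMatrix_mul_heckeDiag hℓ0 hq _) (coe_heckeMatrix_mul_heckeMatrix hq hℓ0 _ _)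
        hℓ.pos Nat.one_pos e
      exact absurd h1 hℓ.one_lt.ne'
  | coe j =>
    induction x' using OnePoint.rec with
    | infty =>
      rw [heckeRep_infty, heckeRep_coe] at e
      obtain ⟨h1, -, -⟩ := hermite_upper κ _ _ 1 (j.val + k.val * ℓ) (q * ℓ) ℓ k'.val q
        (coe_heckeMatrix_mul_heckeMatrix hq hℓ0 _ _) (coe_heckeMatrix_mul_heckeDiag hℓ0 hq _)
        Nat.one_pos hℓ.pos e
      exact absurd h1.symm hℓ.one_lt.ne'
    | coe j' =>
      rw [heckeRep_coe, heckeRep_coe] at e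
      obtain ⟨-, -, h3⟩ := hermite_upper κ _ _ 1 (j.val + k.val * ℓ) (q * ℓ) 1
        (j'.val + k'.val * ℓ) (q * ℓ)
        (coe_heckeMatrix_mul_heckeMatrix hq hℓ0 _ _) (coe_heckeMatrix_mul_heckeMatrix hq hℓ0 _ _)
        Nat.one_pos Nat.one_pos e
      have h4 := eq_of_eq_add_mul (add_mul_lt (ZMod.val_lt j) (ZMod.val_lt k))
        (add_mul_lt (ZMod.val_lt j') (ZMod.val_lt k')) _ h3
      obtain ⟨h5, h6⟩ := pair_eq_of_add_mul_eq (ZMod.val_lt j) (ZMod.val_lt j') h4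
      rw [ZMod.val_injective q h6, ZMod.val_injective ℓ h5]

/-! ### the bijection -/

/-- The map `(x, k) ↦ (k', x')` with `h_x b_k ∈ SL₂(ℤ) b_{k'} h_{x'}`. -/
noncomputable def swapMap (ℓ q : ℕ) (p : OnePoint (ZMod ℓ) × ZMod q) :
    ZMod q × OnePoint (ZMod ℓ) :=
  p.1.elim (((ℓ : ℕ) : ZMod q) * p.2, ∞)
    (fun j => ((((p.2.val + j.val * q) / ℓ : ℕ) : ZMod q),
      ((((p.2.val + j.val * q) % ℓ : ℕ) : ZMod ℓ) : OnePoint (ZMod ℓ))))

theorem swapMap_infty (ℓ q : ℕ) (k : ZMod q) :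
    swapMap ℓ q (∞, k) = (((ℓ : ℕ) : ZMod q) * k, ∞) := rfl

theorem swapMap_coe (ℓ q : ℕ) (j : ZMod ℓ) (k : ZMod q) :
    swapMap ℓ q ((j : OnePoint (ZMod ℓ)), k) = ((((k.val + j.val * q) / ℓ : ℕ) : ZMod q),
      ((((k.val + j.val * q) % ℓ : ℕ) : ZMod ℓ) : OnePoint (ZMod ℓ))) := rfl

theorem val_div_cast {ℓ q : ℕ} [NeZero q] [NeZero ℓ] (j : ZMod ℓ) (k : ZMod q) :
    ((((k.val + j.val * q) / ℓ : ℕ) : ZMod q)).val = (k.val + j.val * q) / ℓ := by
  rw [ZMod.val_natCast]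
  apply Nat.mod_eq_of_lt
  rw [Nat.div_lt_iff_lt_mul (Nat.pos_of_ne_zero (NeZero.ne ℓ))]
  have := add_mul_lt (ZMod.val_lt k) (ZMod.val_lt j)
  rwa [mul_comm ℓ q] at this

theorem val_mod_cast {ℓ : ℕ} [NeZero ℓ] (n : ℕ) :
    (((n % ℓ : ℕ) : ZMod ℓ)).val = n % ℓ := by
  rw [ZMod.val_natCast, Nat.mod_mod]

theorem swapMap_injective {ℓ q : ℕ} [NeZero q] [NeZero ℓ] (hcop : Nat.Coprime ℓ q) :
    Function.Injective (swapMap ℓ q) := by
  rintro ⟨x, k⟩ ⟨x', k'⟩ h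
  induction x using OnePoint.rec with
  | infty =>
    induction x' using OnePoint.rec with
    | infty =>
      rw [swapMap_infty, swapMap_infty] at h
      have h1 : ((ℓ : ℕ) : ZMod q) * k = ((ℓ : ℕ) : ZMod q) * k' := (Prod.ext_iff.mp h).1
      have hu : IsUnit ((ℓ : ℕ) : ZMod q) := (ZMod.isUnit_iff_coprime ℓ q).mpr hcop
      rw [hu.mul_right_inj] at h1
      rw [h1]
    | coe j' =>
      rw [swapMap_infty, swapMap_coe] at h
      exact absurd (Prod.ext_iff.mp h).2 (OnePoint.infty_ne_coe _)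
  | coe j =>
    induction x' using OnePoint.rec with
    | infty =>
      rw [swapMap_infty, swapMap_coe] at h
      exact absurd (Prod.ext_iff.mp h).2 (OnePoint.coe_ne_infty _)
    | coe j' =>
      rw [swapMap_coe, swapMap_coe] at h
      obtain ⟨h1, h2⟩ := Prod.ext_iff.mp h
      simp only at h1 h2
      have h2' := OnePoint.coe_injective h2
      have h3 : (k.val + j.val * q) / ℓ = (k'.val + j'.val * q) / ℓ := by
        rw [← val_div_cast j k, ← val_div_cast j' k', h1]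
      have h4 : (k.val + j.val * q) % ℓ = (k'.val + j'.val * q) % ℓ := by
        rw [← val_mod_cast (ℓ := ℓ) (k.val + j.val * q),
          ← val_mod_cast (ℓ := ℓ) (k'.val + j'.val * q), h2']
      have h5 : k.val + j.val * q = k'.val + j'.val * q := by
        rw [← Nat.div_add_mod (k.val + j.val * q) ℓ, ← Nat.div_add_mod (k'.val + j'.val * q) ℓ,
          h3, h4]
      obtain ⟨h6, h7⟩ := pair_eq_of_add_mul_eq (ZMod.val_lt k) (ZMod.val_lt k') h5
      rw [ZMod.val_injective q h6, ZMod.val_injective ℓ h7]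

/-- The bijection of index sets. -/
noncomputable def swapEquiv (ℓ q : ℕ) [NeZero q] [NeZero ℓ] (hcop : Nat.Coprime ℓ q) :
    OnePoint (ZMod ℓ) × ZMod q ≃ ZMod q × OnePoint (ZMod ℓ) :=
  Equiv.ofBijective (swapMap ℓ q)
    ((Fintype.bijective_iff_injective_and_card _).mpr
      ⟨swapMap_injective hcop, Fintype.card_congr (Equiv.prodComm _ _)⟩)

@[simp] theorem swapEquiv_apply (ℓ q : ℕ) [NeZero q] [NeZero ℓ] (hcop : Nat.Coprime ℓ q)
    (p : OnePoint (ZMod ℓ) × ZMod q) : swapEquiv ℓ q hcop p = swapMap ℓ q p := rfl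

/-! ### the left factors -/

/-- The shift `t` with `ℓ k = k' + t q`, `k' = ℓ k mod q`. -/
noncomputable def swapShift (ℓ q : ℕ) (k : ZMod q) : ℤ :=
  ((ℓ : ℤ) * (k.val : ℤ) - (((((ℓ : ℕ) : ZMod q) * k).val : ℕ) : ℤ)) / (q : ℤ)

theorem swapShift_spec (ℓ q : ℕ) [NeZero q] (k : ZMod q) :
    (ℓ : ℤ) * (k.val : ℤ) = (((((ℓ : ℕ) : ZMod q) * k).val : ℕ) : ℤ) + swapShift ℓ q k * q := by
  have hdvd : (q : ℤ) ∣ (ℓ : ℤ) * (k.val : ℤ) - (((((ℓ : ℕ) : ZMod q) * k).val : ℕ) : ℤ) := by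
    rw [← ZMod.intCast_zmod_eq_zero_iff_dvd]
    push_cast
    rw [ZMod.natCast_zmod_val, ZMod.natCast_zmod_val, sub_self]
  rw [swapShift, Int.ediv_mul_cancel hdvd]
  ring

/-- The element `[[1, t], [0, 1]]` of `Γ₀(N)`. -/
noncomputable def upperUniGamma0 (N : ℕ) (t : ℤ) : Gamma0 N :=
  ⟨ModularGroup.T ^ t, by
    rw [Gamma0_mem, ModularGroup.coe_T_zpow]
    simp⟩

theorem upperUniGamma0_coe (N : ℕ) (t : ℤ) :
    (((upperUniGamma0 N t : Gamma0 N) : SL(2, ℤ)) : Matrix (Fin 2) (Fin 2) ℤ)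
      = !![1, t; 0, 1] :=
  ModularGroup.coe_T_zpow t

/-- The left factor `μ`. -/
noncomputable def swapMu (N ℓ q : ℕ) (p : OnePoint (ZMod ℓ) × ZMod q) : Gamma0 N :=
  p.1.elim (upperUniGamma0 N (swapShift ℓ q p.2)) (fun _ => 1)

theorem swap_spec (N : ℕ) {ℓ q : ℕ} [NeZero q] [NeZero ℓ] (p : OnePoint (ZMod ℓ) × ZMod q) :
    heckeRep ℓ p.1 * ModularForm.heckeMatrix q p.2.val
      = gamma0ToGL N (swapMu N ℓ q p)
        * (ModularForm.heckeMatrix q (swapMap ℓ q p).1.val * heckeRep ℓ (swapMap ℓ q p).2) := by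
  have hq : q ≠ 0 := NeZero.ne q
  have hℓ0 : ℓ ≠ 0 := NeZero.ne ℓ
  obtain ⟨x, k⟩ := p
  induction x using OnePoint.rec with
  | infty =>
    rw [swapMap_infty]
    show ModularForm.heckeDiagMatrix ℓ * ModularForm.heckeMatrix q k.val
      = mapGL ℝ ((upperUniGamma0 N (swapShift ℓ q k) : Gamma0 N) : SL(2, ℤ))
        * (ModularForm.heckeMatrix q (((ℓ : ℕ) : ZMod q) * k).val * ModularForm.heckeDiagMatrix ℓ)
    apply Units.ext
    rw [mapGL_mul_upper_apply _ _ _ _ _ (coe_heckeMatrix_mul_heckeDiag hℓ0 hq _),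
      coe_heckeDiag_mul_heckeMatrix hℓ0 hq]
    have h := swapShift_spec ℓ q k
    have hT : (((upperUniGamma0 N (swapShift ℓ q k) : Gamma0 N) : SL(2, ℤ)) :
        Matrix (Fin 2) (Fin 2) ℤ) = !![1, swapShift ℓ q k; 0, 1] := upperUniGamma0_coe N _
    have h00 : ((upperUniGamma0 N (swapShift ℓ q k) : Gamma0 N) : SL(2, ℤ)) 0 0 = 1 := by
      show (((upperUniGamma0 N (swapShift ℓ q k) : Gamma0 N) : SL(2, ℤ)) :
        Matrix (Fin 2) (Fin 2) ℤ) 0 0 = 1
      rw [hT]; rfl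
    have h01 : ((upperUniGamma0 N (swapShift ℓ q k) : Gamma0 N) : SL(2, ℤ)) 0 1
        = swapShift ℓ q k := by
      show (((upperUniGamma0 N (swapShift ℓ q k) : Gamma0 N) : SL(2, ℤ)) :
        Matrix (Fin 2) (Fin 2) ℤ) 0 1 = _
      rw [hT]; rfl
    have h10 : ((upperUniGamma0 N (swapShift ℓ q k) : Gamma0 N) : SL(2, ℤ)) 1 0 = 0 := by
      show (((upperUniGamma0 N (swapShift ℓ q k) : Gamma0 N) : SL(2, ℤ)) :
        Matrix (Fin 2) (Fin 2) ℤ) 1 0 = 0
      rw [hT]; rfl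
    have h11 : ((upperUniGamma0 N (swapShift ℓ q k) : Gamma0 N) : SL(2, ℤ)) 1 1 = 1 := by
      show (((upperUniGamma0 N (swapShift ℓ q k) : Gamma0 N) : SL(2, ℤ)) :
        Matrix (Fin 2) (Fin 2) ℤ) 1 1 = 1
      rw [hT]; rfl
    rw [h00, h01, h10, h11]
    have hr : ((ℓ * k.val : ℕ) : ℝ)
        = (((((ℓ : ℕ) : ZMod q) * k).val : ℕ) : ℝ) + ((swapShift ℓ q k : ℤ) : ℝ) * (q : ℝ) := by
      have := congrArg (Int.cast : ℤ → ℝ) h
      push_cast at this ⊢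
      exact this
    ext a b
    fin_cases a <;> fin_cases b <;> simp [hr]
  | coe j =>
    rw [swapMap_coe]
    show ModularForm.heckeMatrix ℓ j.val * ModularForm.heckeMatrix q k.val
      = gamma0ToGL N 1 * (ModularForm.heckeMatrix q
          ((((k.val + j.val * q) / ℓ : ℕ) : ZMod q)).val
        * ModularForm.heckeMatrix ℓ ((((k.val + j.val * q) % ℓ : ℕ) : ZMod ℓ)).val)
    rw [map_one, one_mul, val_div_cast, val_mod_cast]
    apply Units.ext
    rw [coe_heckeMatrix_mul_heckeMatrix hℓ0 hq, coe_heckeMatrix_mul_heckeMatrix hq hℓ0,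
      Nat.mod_add_div' (k.val + j.val * q) ℓ, mul_comm q ℓ]

/-! ### the commutation -/

/-- **COR-HECKE-B, core form**: the operator of the family `[[1, k], [0, q]]` commutes with the
cohomological Hecke operators `T_ℓ`, `ℓ ∤ L q`. -/
theorem op_heckeMatrix_cohT (L q ℓ : ℕ) [NeZero q] (hℓ : ℓ.Prime) (hℓL : ¬ ℓ ∣ L)
    (hℓM : ¬ ℓ ∣ L * q)
    (hB : Rew2 (gamma0ToGL (L * q)) (gamma0ToGL L)
      (fun k : ZMod q => ModularForm.heckeMatrix q k.val))
    (A : Type*) [AddCommGroup A] (ψ : Additive (Gamma0 (L * q)) →+ A) :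
    hB.op A (cohT (L * q) ℓ hℓ hℓM A ψ) = cohT L ℓ hℓ hℓL A (hB.op A ψ) := by
  have : Fact ℓ.Prime := ⟨hℓ⟩
  have : NeZero ℓ := ⟨hℓ.ne_zero⟩
  have hcop : Nat.Coprime ℓ q :=
    (Nat.Prime.coprime_iff_not_dvd hℓ).mpr (fun h => hℓM (h.mul_left L))
  have hT1 : Rew2 (gamma0ToGL (L * q)) (gamma0ToGL (L * q)) (heckeRep ℓ) :=
    rew2_of_rewriting (rewritingT (L * q) ℓ hℓM)
  have hT2 : Rew2 (gamma0ToGL L) (gamma0ToGL L) (heckeRep ℓ) :=
    rew2_of_rewriting (rewritingT L ℓ hℓL)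
  rw [cohT_eq_transfer hℓ hℓM, cohT_eq_transfer hℓ hℓL,
    ← rew2_op_eq_transfer (rewritingT (L * q) ℓ hℓM) hT1,
    ← rew2_op_eq_transfer (rewritingT L ℓ hℓL) hT2]
  exact Rew2.op_op_comm hT1 hB hB hT2
    (fun p p' κ e => sep_heckeMatrix_heckeRep hℓ p p' (κ : SL(2, ℤ)) e)
    (swapEquiv ℓ q hcop) (swapMu (L * q) ℓ q) (fun p => swap_spec (L * q) p) ψ

end Fermat.Agent.H33.SS2
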