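/-
P-SS2 (S36), J-side, row 1013 (SS2-J2B COR-HECKE-B), helper33:
`corHeckeB : Fermat.Agent.H63.SS2.CorHeckeBStatement` (unconditional): the corestriction `corB`
commutes with the cohomological Hecke operators `T_ℓ`, `ℓ ∤ L q`.
-/
import Fermat.Agent.H63.SS2.Interfaces
import Fermat.Agent.H33.SS2.CorHeckeBCore

set_option autoImplicit false

open CongruenceSubgroup Matrix.SpecialLinearGroup
open scoped MatrixGroups

namespace Fermat.Agent.H33.SS2

open Fermat.Agent.H21 Fermat.Agent.H63.SS2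

/-- **J2B (COR-HECKE-B)**, for any proof of the rewriting property of the family `corFamB`. -/
theorem corB_cohT (L q ℓ : ℕ) [NeZero q] (hℓ : ℓ.Prime) (hℓL : ¬ ℓ ∣ L) (hℓM : ¬ ℓ ∣ L * q)
    (A : Type*) [AddCommGroup A] (ψ : Additive (Gamma0 (L * q)) →+ A) :
    corB L q A (cohT (L * q) ℓ hℓ hℓM A ψ) = cohT L ℓ hℓ hℓL A (corB L q A ψ) := by
  by_cases hB : Rew2 (gamma0ToGL (L * q)) (gamma0ToGL L) (corFamB q)
  · rw [corB_eq hB]
    exact op_heckeMatrix_cohT L q ℓ hℓ hℓL hℓM hB A ψ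
  · rw [corB, dif_neg hB, AddMonoidHom.zero_apply, AddMonoidHom.zero_apply, map_zero]

/-- **J2B (COR-HECKE-B)** (row 1013), unconditional. -/
theorem corHeckeB : Fermat.Agent.H63.SS2.CorHeckeBStatement := by
  intro L q _ _ _ _ ℓ hℓ hℓL hℓM A _ ψ
  exact corB_cohT L q ℓ hℓ hℓL hℓM A ψ

/-- The same with the (unused) hypothesis of the row. -/
theorem corHeckeB_of (_h : Fermat.Agent.H63.SS2.CorRewStatement) :
    Fermat.Agent.H63.SS2.CorHeckeBStatement :=
  corHeckeB

end Fermat.Agent.H33.SS2
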